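import Mathlib.RingTheory.RingHom.StandardSmooth
import Mathlib.RingTheory.Smooth.AdicCompletion
import Mathlib.RingTheory.RingHom.Etale
import Mathlib.RingTheory.Localization.AtPrime.Basic
import Mathlib.RingTheory.Localization.Submodule
import Mathlib.RingTheory.Filtration
import Fermat.Agent.Deformation.Tower

/-!
# Coordinates at a rational point of a standard smooth algebra

If `S` is étale over `K[X₁, …, X_d]` and `O` is its local ring at a rational point, then the
translated coordinates generate the maximal ideal and define an embedding `O → K⟦X₁, …, X_d⟧`.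

Team S26.
-/

set_option autoImplicit false

noncomputable section

universe u

namespace Fermat.Agent.Abelian.SchemeModel

open IsLocalRing MvPolynomial
open Fermat.Agent.Deformation (varsIdeal coe_mem_varsIdeal_pow evalTrunc evalTrunc_coe
  evalTrunc_pow_le_ker)

variable {K : Type u} [Field K] {d : ℕ}

/-- A polynomial in the `N`-th power of the variable ideal of power series lies in the `N`-th
power of the variable ideal of polynomials. -/
theorem mem_idealOfVars_pow_of_coe_mem {p : MvPolynomial (Fin d) K} {N : ℕ}
    (hp : (p : MvPowerSeries (Fin d) K) ∈ varsIdeal (Fin d) K ^ N) :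
    p ∈ MvPolynomial.idealOfVars (Fin d) K ^ N := by
  let J := MvPolynomial.idealOfVars (Fin d) K ^ N
  let v : Fin d → MvPolynomial (Fin d) K ⧸ J := fun i => Ideal.Quotient.mk J (MvPolynomial.X i)
  have hv : Ideal.span (Set.range v) ^ N = ⊥ := by
    have : Ideal.span (Set.range v) = (MvPolynomial.idealOfVars (Fin d) K).map
        (Ideal.Quotient.mk J) := by
      rw [Ideal.map_span, ← Set.range_comp]; rfl
    rw [this, ← Ideal.map_pow, Ideal.map_quotient_self]
  have h := evalTrunc_pow_le_ker (𝒪 := K) v N hv hp
  rw [RingHom.mem_ker, evalTrunc_coe] at h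
  have h2 : MvPolynomial.aeval v p = Ideal.Quotient.mkₐ K J p := by
    exact DFunLike.congr_fun (MvPolynomial.algHom_ext fun i => by simp [v] :
      MvPolynomial.aeval (R := K) v = Ideal.Quotient.mkₐ K J) p
  rw [h2] at h
  exact Ideal.Quotient.eq_zero_iff_mem.mp h

/-- The variables map to the maximal ideal of power series. -/
theorem constantCoeff_eq_zero_of_mem_varsIdeal {f : MvPowerSeries (Fin d) K}
    (hf : f ∈ varsIdeal (Fin d) K) : MvPowerSeries.constantCoeff f = 0 := by
  refine Submodule.span_induction (p := fun f _ => MvPowerSeries.constantCoeff f = 0)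
    ?_ (map_zero _) ?_ ?_ hf
  · rintro _ ⟨i, rfl⟩
    exact MvPowerSeries.constantCoeff_X i
  · intro a b _ _ ha hb
    rw [map_add, ha, hb, add_zero]
  · intro a b _ hb
    rw [smul_eq_mul, map_mul, hb, mul_zero]

variable {S : Type u} [CommRing S] [Algebra K S]

/-- Coordinates at a rational point of an étale algebra over a polynomial ring. -/
theorem exists_coord_of_etale (g : MvPolynomial (Fin d) K →ₐ[K] S) (hg : g.toRingHom.Etale)
    (e : S →ₐ[K] K) {O : Type u} [CommRing O] [IsLocalRing O] [Algebra K O] [Algebra S O]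
    [IsScalarTower K S O] [(RingHom.ker e.toRingHom).IsPrime]
    [IsLocalization.AtPrime O (RingHom.ker e.toRingHom)] :
    ∃ (t : Fin d → O) (τ : O →ₐ[K] MvPowerSeries (Fin d) K), Function.Injective τ ∧
      (∀ i, τ (t i) = MvPowerSeries.X i) ∧
      Ideal.span (Set.range t) = maximalIdeal O ∧
      ∀ i, t i = algebraMap S O (g (X i) - algebraMap K S (e (g (X i)))) := by
  classical
  -- translate the coordinates
  let a : Fin d → K := fun i => e (g (X i))
  let sh : MvPolynomial (Fin d) K →ₐ[K] MvPolynomial (Fin d) K := aeval fun i => X i - C (a i)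
  have hsh : Function.Bijective sh := by
    let sh' : MvPolynomial (Fin d) K →ₐ[K] MvPolynomial (Fin d) K := aeval fun i => X i + C (a i)
    have h1 : sh'.comp sh = AlgHom.id K _ := MvPolynomial.algHom_ext fun i => by
      simp [sh, sh']
    have h2 : sh.comp sh' = AlgHom.id K _ := MvPolynomial.algHom_ext fun i => by
      simp [sh, sh']
    exact ⟨Function.LeftInverse.injective (g := sh') fun p => AlgHom.congr_fun h1 p,
      Function.RightInverse.surjective (g := sh') fun p => AlgHom.congr_fun h2 p⟩
  let g' : MvPolynomial (Fin d) K →ₐ[K] S := g.comp sh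
  have hg' : g'.toRingHom.Etale :=
    RingHom.Etale.stableUnderComposition _ _ (RingHom.Etale.of_bijective hsh) hg
  have hg'X : ∀ i, g' (X i) = g (X i) - algebraMap K S (a i) := fun i => by
    simp [g', sh, ← MvPolynomial.algebraMap_eq]
  have hes : ∀ i, e (g' (X i)) = 0 := fun i => by simp [hg'X, a]
  let M := RingHom.ker e.toRingHom
  let s : Fin d → S := fun i => g' (X i)
  let I : Ideal S := Ideal.span (Set.range s)
  let _ : Algebra (MvPolynomial (Fin d) K) S := g'.toRingHom.toAlgebra
  have : IsScalarTower K (MvPolynomial (Fin d) K) S :=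
    IsScalarTower.of_algebraMap_eq fun c => (g'.commutes c).symm
  have hetale : Algebra.Etale (MvPolynomial (Fin d) K) S := hg'
  have halg : ∀ p, algebraMap (MvPolynomial (Fin d) K) S p = g' p := fun p => rfl
  have : IsNoetherianRing S := Algebra.FiniteType.isNoetherianRing (MvPolynomial (Fin d) K) S
  have : IsNoetherianRing O :=
    IsLocalization.isNoetherianRing M.primeCompl O ‹_›
  have hM1 : ∀ x : S, x - algebraMap K S (e x) ∈ M := fun x => by
    show e.toRingHom _ = 0
    simp
  have hm : M.map (algebraMap S O) = maximalIdeal O :=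
    IsLocalization.AtPrime.map_eq_maximalIdeal M O
  -- the coordinates generate the maximal ideal
  have hMI : M ≤ I ⊔ M ^ 2 := by
    intro x hx
    let T := S ⧸ I ⊔ M ^ 2
    let g1 : S →ₐ[MvPolynomial (Fin d) K] T := Ideal.Quotient.mkₐ _ _
    have hcomm : ((algebraMap K T).comp e.toRingHom).comp g'.toRingHom =
        (Ideal.Quotient.mk (I ⊔ M ^ 2)).comp g'.toRingHom := by
      refine MvPolynomial.ringHom_ext (fun c => ?_) fun i => ?_
      · simp only [RingHom.comp_apply, AlgHom.toRingHom_eq_coe, RingHom.coe_coe,
          ← MvPolynomial.algebraMap_eq, AlgHom.commutes]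
        rfl
      · simp only [RingHom.comp_apply, AlgHom.toRingHom_eq_coe, RingHom.coe_coe, hes, map_zero]
        exact (Ideal.Quotient.eq_zero_iff_mem.mpr
          (Ideal.mem_sup_left (show g' (X i) ∈ I from Ideal.subset_span ⟨i, rfl⟩))).symm
    let g2 : S →ₐ[MvPolynomial (Fin d) K] T :=
      { (algebraMap K T).comp e.toRingHom with
        commutes' := fun p => RingHom.congr_fun hcomm p }
    let Jt : Ideal T := M.map (Ideal.Quotient.mk (I ⊔ M ^ 2))
    have hJt : IsNilpotent Jt := by
      refine ⟨2, ?_⟩
      rw [← Ideal.map_pow]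
      exact (Ideal.map_eq_bot_iff_le_ker _).mpr (by rw [Ideal.mk_ker]; exact le_sup_right)
    have h12 : g1 = g2 := Algebra.FormallyUnramified.ext Jt hJt fun y => by
      rw [Ideal.Quotient.mk_eq_mk_iff_sub_mem]
      show Ideal.Quotient.mk (I ⊔ M ^ 2) y -
        Ideal.Quotient.mk (I ⊔ M ^ 2) (algebraMap K S (e y)) ∈ Jt
      rw [← map_sub]
      exact Ideal.mem_map_of_mem _ (hM1 y)
    have h := AlgHom.congr_fun h12 x
    have h' : Ideal.Quotient.mk (I ⊔ M ^ 2) x = algebraMap K T (e x) := h
    rw [show e x = 0 from hx, map_zero, Ideal.Quotient.eq_zero_iff_mem] at h'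
    exact h'
  let t : Fin d → O := fun i => algebraMap S O (s i)
  have hspan : Ideal.span (Set.range t) = maximalIdeal O := by
    have hIO : I.map (algebraMap S O) = Ideal.span (Set.range t) := by
      rw [Ideal.map_span, ← Set.range_comp]; rfl
    refine le_antisymm ?_ ?_
    · rw [← hm, ← hIO]
      exact Ideal.map_mono (Ideal.span_le.mpr (by rintro _ ⟨i, rfl⟩; exact hes i))
    · refine Submodule.le_of_le_smul_of_le_jacobson_bot (I := maximalIdeal O)
        (IsNoetherian.noetherian _) (maximalIdeal_le_jacobson _) ?_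
      rw [smul_eq_mul, ← pow_two, ← hm, ← Ideal.map_pow, ← hIO, ← Ideal.map_sup]
      exact Ideal.map_mono hMI
  -- the expansion
  let J := varsIdeal (Fin d) K
  let f : S →ₐ[MvPolynomial (Fin d) K] MvPowerSeries (Fin d) K ⧸ J :=
    { ((Ideal.Quotient.mk J).comp (algebraMap K (MvPowerSeries (Fin d) K))).comp e.toRingHom with
      commutes' := fun p => by
        have : ((((Ideal.Quotient.mk J).comp
            (algebraMap K (MvPowerSeries (Fin d) K))).comp e.toRingHom).comp g'.toRingHom) =
            algebraMap (MvPolynomial (Fin d) K) (MvPowerSeries (Fin d) K ⧸ J) := by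
          refine MvPolynomial.ringHom_ext (fun c => ?_) fun i => ?_
          · simp only [RingHom.comp_apply, AlgHom.toRingHom_eq_coe, RingHom.coe_coe,
              ← MvPolynomial.algebraMap_eq, AlgHom.commutes]
            show _ = Ideal.Quotient.mk J (algebraMap (MvPolynomial (Fin d) K) (MvPowerSeries (Fin d) K) _)
            rw [MvPowerSeries.algebraMap_apply']
            simp [MvPowerSeries.algebraMap_apply]
          · simp only [RingHom.comp_apply, AlgHom.toRingHom_eq_coe, RingHom.coe_coe, hes, map_zero]
            show _ = Ideal.Quotient.mk J (algebraMap (MvPolynomial (Fin d) K) (MvPowerSeries (Fin d) K) _)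
            rw [MvPowerSeries.algebraMap_apply']
            refine (Ideal.Quotient.eq_zero_iff_mem.mpr ?_).symm
            exact Ideal.subset_span ⟨i, by simp⟩
        exact RingHom.congr_fun this p }
  obtain ⟨τS, hτS⟩ := Algebra.FormallySmooth.exists_mkₐ_comp_eq_of_isAdicComplete f
  have hτK : ∀ c : K, τS (algebraMap K S c) = algebraMap K _ c := fun c => by
    rw [IsScalarTower.algebraMap_apply K (MvPolynomial (Fin d) K) S, AlgHom.commutes,
      MvPolynomial.algebraMap_eq, MvPowerSeries.algebraMap_apply']
    simp [MvPowerSeries.algebraMap_apply]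
  have hτcc : ∀ x : S, MvPowerSeries.constantCoeff (τS x) = e x := fun x => by
    have h := AlgHom.congr_fun hτS x
    have h' : Ideal.Quotient.mk J (τS x) =
        Ideal.Quotient.mk J (algebraMap K (MvPowerSeries (Fin d) K) (e x)) := h
    have := constantCoeff_eq_zero_of_mem_varsIdeal (Ideal.Quotient.eq.mp h')
    rw [map_sub, sub_eq_zero] at this
    rw [this]
    simp [MvPowerSeries.algebraMap_apply]
  have hunit : ∀ y : M.primeCompl, IsUnit (τS.toRingHom y) := fun y => by
    refine MvPowerSeries.isUnit_iff_constantCoeff.mpr ?_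
    show IsUnit (MvPowerSeries.constantCoeff (τS y))
    rw [hτcc]
    exact isUnit_iff_ne_zero.mpr fun h => y.2 h
  let τ : O →ₐ[K] MvPowerSeries (Fin d) K :=
    { IsLocalization.lift (S := O) hunit with
      commutes' := fun c => by
        show IsLocalization.lift (S := O) hunit (algebraMap K O c) = _
        rw [IsScalarTower.algebraMap_apply K S O, IsLocalization.lift_eq]
        exact hτK c }
  have hτt : ∀ i, τ (t i) = MvPowerSeries.X i := fun i => by
    show IsLocalization.lift (S := O) hunit (algebraMap S O (g' (X i))) = _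
    rw [IsLocalization.lift_eq, ← halg]
    show τS _ = _
    rw [AlgHom.commutes, MvPowerSeries.algebraMap_apply']
    simp
  refine ⟨t, τ, ?_, hτt, hspan, fun i => by simp only [t, s, hg'X, a]⟩
  rw [injective_iff_map_eq_zero]
  intro x hx
  have hres : ∀ z : O, ∃ c : K, z - algebraMap K O c ∈ maximalIdeal O := by
    intro z
    obtain ⟨x, y, rfl⟩ := IsLocalization.exists_mk'_eq M.primeCompl z
    refine ⟨e x / e y, ?_⟩
    have hy : e (y : S) ≠ 0 := y.2
    have key : (IsLocalization.mk' O x y - algebraMap K O (e x / e y)) * algebraMap S O y =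
        algebraMap S O (x - algebraMap K S (e x / e y) * y) := by
      rw [sub_mul, IsLocalization.mk'_spec, map_sub, map_mul, ← IsScalarTower.algebraMap_apply]
    have hmem : algebraMap S O (x - algebraMap K S (e x / e y) * y) ∈ maximalIdeal O := by
      rw [← hm]
      refine Ideal.mem_map_of_mem _ ?_
      show e _ = 0
      simp [div_mul_cancel₀ _ hy]
    rw [← key] at hmem
    exact (Ideal.mul_unit_mem_iff_mem _ (IsLocalization.map_units O y)).mp hmem
  have happ : ∀ N (z : O), ∃ p : MvPolynomial (Fin d) K,
      z - MvPolynomial.aeval t p ∈ maximalIdeal O ^ N := by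
    intro N
    induction N with
    | zero => exact fun z => ⟨0, by simp⟩
    | succ N ih =>
      intro z
      obtain ⟨c, hc⟩ := hres z
      rw [← hspan, Ideal.mem_span_range_iff_exists_fun] at hc
      obtain ⟨w, hw⟩ := hc
      choose p hp using fun i => ih (w i)
      refine ⟨C c + ∑ i, p i * X i, ?_⟩
      have : z - MvPolynomial.aeval t (C c + ∑ i, p i * X i) =
          ∑ i, (w i - MvPolynomial.aeval t (p i)) * t i := by
        simp only [map_add, map_sum, map_mul, MvPolynomial.aeval_C, MvPolynomial.aeval_X,
          sub_mul, Finset.sum_sub_distrib, hw]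
        ring
      rw [this, pow_succ]
      exact Ideal.sum_mem _ fun i _ => Ideal.mul_mem_mul (hp i)
        (hspan ▸ Ideal.subset_span ⟨i, rfl⟩)
  have hτspan : (maximalIdeal O).map τ ≤ J := by
    rw [← hspan, Ideal.map_span, Ideal.span_le]
    rintro _ ⟨_, ⟨i, rfl⟩, rfl⟩
    exact Ideal.subset_span ⟨i, (hτt i).symm⟩
  suffices x ∈ ⨅ N : ℕ, maximalIdeal O ^ N by
    rwa [Ideal.iInf_pow_eq_bot_of_isLocalRing _ (maximalIdeal.isMaximal O).ne_top] at this
  rw [Ideal.mem_iInf]
  intro N
  obtain ⟨p, hp⟩ := happ N x
  have hτp : τ (MvPolynomial.aeval t p) = (p : MvPowerSeries (Fin d) K) := by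
    have hcoe : τ.comp (MvPolynomial.aeval t) =
        MvPolynomial.coeToMvPowerSeries.algHom K :=
      MvPolynomial.algHom_ext fun i => by simp [hτt, MvPolynomial.coeToMvPowerSeries.algHom_apply]
    simpa [MvPolynomial.coeToMvPowerSeries.algHom_apply] using AlgHom.congr_fun hcoe p
  have hpJ : (p : MvPowerSeries (Fin d) K) ∈ varsIdeal (Fin d) K ^ N := by
    have := Ideal.pow_right_mono hτspan N
      (by rw [← Ideal.map_pow]; exact Ideal.mem_map_of_mem τ hp)
    rwa [map_sub, hx, hτp, zero_sub, neg_mem_iff] at this
  have haev : MvPolynomial.aeval t p ∈ maximalIdeal O ^ N := by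
    refine Ideal.pow_right_mono ?_ N (show MvPolynomial.aeval t p ∈
      ((MvPolynomial.idealOfVars (Fin d) K).map (MvPolynomial.aeval t)) ^ N from by
        rw [← Ideal.map_pow]
        exact Ideal.mem_map_of_mem _ (mem_idealOfVars_pow_of_coe_mem hpJ))
    rw [Ideal.map_span, Ideal.span_le]
    rintro _ ⟨_, ⟨i, rfl⟩, rfl⟩
    rw [MvPolynomial.aeval_X, ← hspan]
    exact Ideal.subset_span ⟨i, rfl⟩
  simpa using add_mem hp haev

end Fermat.Agent.Abelian.SchemeModel
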