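import Mathlib.AlgebraicGeometry.AlgClosed.Basic
import Mathlib.AlgebraicGeometry.Morphisms.Smooth
import Mathlib.AlgebraicGeometry.Noetherian
import Mathlib.RingTheory.MvPowerSeries.NoZeroDivisors
import Fermat.Agent.Abelian.SchemeModel.LocalCoord

/-!
# A connected smooth scheme over an algebraically closed field is integral

Also: structure maps to stalks, and coordinates at rational points.

Team S26.
-/

set_option autoImplicit false

noncomputable section

universe u

open CategoryTheory AlgebraicGeometry TopologicalSpace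

namespace Fermat.Agent.Abelian.SchemeModel

variable {K : Type u} [Field K] {A : Scheme.{u}} (f : A ⟶ Spec (CommRingCat.of K))

/-- The structure map to the sections on an open subset. -/
def kSection (U : A.Opens) : CommRingCat.of K ⟶ Γ(A, U) :=
  (Scheme.ΓSpecIso (CommRingCat.of K)).inv ≫ f.appTop ≫ A.presheaf.map (homOfLE le_top).op

/-- The structure map to a stalk. -/
def kStalk (x : A) : CommRingCat.of K ⟶ A.presheaf.stalk x :=
  (Scheme.ΓSpecIso (CommRingCat.of K)).inv ≫ f.appTop ≫ A.presheaf.germ ⊤ x trivial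

theorem kSection_germ (U : A.Opens) (x : A) (hx : x ∈ U) :
    kSection f U ≫ A.presheaf.germ U x hx = kStalk f x := by
  simp only [kSection, kStalk, Category.assoc, TopCat.Presheaf.germ_res]

theorem kStalk_stalkSpecializes {x y : A} (h : x ⤳ y) :
    kStalk f y ≫ A.presheaf.stalkSpecializes h = kStalk f x := by
  simp only [kStalk, Category.assoc]
  congr 2
  exact A.presheaf.germ_stalkSpecializes (U := ⊤) trivial h

theorem fromSpecStalk_comp (x : A) : A.fromSpecStalk x ≫ f = Spec.map (kStalk f x) := by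
  have h1 : f = A.toSpecΓ ≫ Spec.map ((Scheme.ΓSpecIso (CommRingCat.of K)).inv ≫ f.appTop) := by
    rw [Spec.map_comp, ← Scheme.toSpecΓ_naturality_assoc, ← SpecMap_ΓSpecIso_hom,
      ← Spec.map_comp, Iso.inv_hom_id, Spec.map_id, Category.comp_id]
  conv_lhs => rw [h1]
  rw [Scheme.fromSpecStalk_toSpecΓ_assoc, ← Spec.map_comp]
  simp [kStalk]

/-- A `K`-point gives a retraction of the structure map of the stalk at its image. -/
theorem kStalk_stalkClosedPointTo {R : CommRingCat.{u}} [IsLocalRing R]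
    (x : Spec R ⟶ A) (φ : CommRingCat.of K ⟶ R) (hx : x ≫ f = Spec.map φ) :
    kStalk f (x (IsLocalRing.closedPoint R)) ≫ Scheme.stalkClosedPointTo x = φ := by
  apply Spec.map_injective
  rw [Spec.map_comp, ← fromSpecStalk_comp, Scheme.Spec_stalkClosedPointTo_fromSpecStalk_assoc, hx]

/-- Affine neighbourhoods which are étale over affine space. -/
theorem exists_affine_etale (g : ℕ) [SmoothOfRelativeDimension g f] (x : A) :
    ∃ (V : A.Opens) (_ : IsAffineOpen V) (_ : x ∈ V)
      (φ : MvPolynomial (Fin g) K →+* Γ(A, V)),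
      φ.comp MvPolynomial.C = (kSection f V).hom ∧ φ.Etale := by
  obtain ⟨U, hU, V, hV, hxV, e, h⟩ :=
    SmoothOfRelativeDimension.exists_isStandardSmoothOfRelativeDimension (n := g) (f := f) x
  have hUtop : U = ⊤ := by
    refine eq_top_iff.mpr fun y _ => ?_
    have := e hxV
    rwa [Subsingleton.elim y (f x)]
  subst hUtop
  have h2 : RingHom.IsStandardSmoothOfRelativeDimension g (kSection f V).hom := by
    have e2 : (kSection f V).hom = (f.appLE ⊤ V e).hom.comp
        (Scheme.ΓSpecIso (CommRingCat.of K)).symm.commRingCatIsoToRingEquiv.toRingHom := rfl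
    rw [e2]
    exact RingHom.isStandardSmoothOfRelativeDimension_respectsIso.right _ _ h
  obtain ⟨φ, hφ, hφe⟩ := h2.exists_etale_mvPolynomial
  exact ⟨V, hV, hxV, φ, hφ, hφe⟩

/-- Coordinates at the image of a rational point. -/
theorem exists_coord_stalk (g : ℕ) [SmoothOfRelativeDimension g f] (x : Spec (CommRingCat.of K) ⟶ A)
    (hx : x ≫ f = 𝟙 _) :
    ∃ (V : A.Opens) (_ : IsAffineOpen V) (hpV : x (IsLocalRing.closedPoint K) ∈ V)
      (φ : MvPolynomial (Fin g) K →+* Γ(A, V))
      (c : Fin g → K) (t : Fin g → A.presheaf.stalk (x (IsLocalRing.closedPoint K)))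
      (τ : A.presheaf.stalk (x (IsLocalRing.closedPoint K)) →+* MvPowerSeries (Fin g) K),
      φ.comp MvPolynomial.C = (kSection f V).hom ∧ φ.Etale ∧
      τ.comp (kStalk f _).hom = algebraMap K (MvPowerSeries (Fin g) K) ∧
      Function.Injective τ ∧ (∀ i, τ (t i) = MvPowerSeries.X i) ∧
      Ideal.span (Set.range t) = IsLocalRing.maximalIdeal _ ∧
      ∀ i, t i = A.presheaf.germ V _ hpV (φ (MvPolynomial.X i) - kSection f V (c i)) := by
  generalize hp : x (IsLocalRing.closedPoint K) = p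
  obtain ⟨V, hV, hpV, φ, hφ, hφe⟩ := exists_affine_etale f g p
  obtain ⟨σ, hσl, hσ⟩ : ∃ σ : A.presheaf.stalk p ⟶ CommRingCat.of K, IsLocalHom σ.hom ∧
      kStalk f p ≫ σ = 𝟙 _ := by
    subst hp
    exact ⟨Scheme.stalkClosedPointTo x, inferInstance,
      kStalk_stalkClosedPointTo f x (𝟙 _) (by rw [Spec.map_id, hx])⟩
  let : Algebra K Γ(A, V) := (kSection f V).hom.toAlgebra
  let : Algebra K (A.presheaf.stalk p) := (kStalk f p).hom.toAlgebra
  let : Algebra Γ(A, V) (A.presheaf.stalk p) := (A.presheaf.germ V p hpV).hom.toAlgebra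
  have : IsScalarTower K Γ(A, V) (A.presheaf.stalk p) :=
    IsScalarTower.of_algebraMap_eq fun c => (congrArg (fun χ => χ.hom c) (kSection_germ f V p hpV)).symm
  let g₁ : MvPolynomial (Fin g) K →ₐ[K] Γ(A, V) :=
    { φ with commutes' := fun c => DFunLike.congr_fun hφ c }
  let e : Γ(A, V) →ₐ[K] K :=
    { (A.presheaf.germ V p hpV ≫ σ).hom with
      commutes' := fun c => by
        have h := congrArg (fun χ => χ.hom c) (kSection_germ f V p hpV =≫ σ)
        exact h.trans (congrArg (fun χ => χ.hom c) hσ) }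
  have hker : RingHom.ker e.toRingHom = (hV.primeIdealOf ⟨p, hpV⟩).asIdeal := by
    have := hV.isLocalization_stalk ⟨p, hpV⟩
    rw [← IsLocalization.AtPrime.under_maximalIdeal (A.presheaf.stalk p)
      (hV.primeIdealOf ⟨p, hpV⟩).asIdeal]
    ext a
    show σ (A.presheaf.germ V p hpV a) = 0 ↔ A.presheaf.germ V p hpV a ∈ IsLocalRing.maximalIdeal _
    rw [IsLocalRing.mem_maximalIdeal, mem_nonunits_iff]
    refine ⟨fun h0 hu => ?_, fun hn => ?_⟩
    · exact (hu.map σ.hom).ne_zero h0
    · by_contra h0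
      exact hn (IsUnit.of_map σ.hom _ (isUnit_iff_ne_zero.mpr h0))
  have hprime : (RingHom.ker e.toRingHom).IsPrime := RingHom.ker_isPrime _
  have hloc : IsLocalization.AtPrime (A.presheaf.stalk p) (RingHom.ker e.toRingHom) := by
    have h := hV.isLocalization_stalk ⟨p, hpV⟩
    have e2 : (RingHom.ker e.toRingHom).primeCompl =
        (hV.primeIdealOf ⟨p, hpV⟩).asIdeal.primeCompl := by
      ext a
      show a ∉ _ ↔ a ∉ _
      rw [hker]
    unfold IsLocalization.AtPrime
    rw [e2]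
    exact h
  obtain ⟨t, τ, hinj, hτt, hspan, ht⟩ := exists_coord_of_etale g₁ hφe e (O := A.presheaf.stalk p)
  exact ⟨V, hV, hpV, φ, fun i => e (g₁ (MvPolynomial.X i)), t, τ.toRingHom, hφ, hφe,
    RingHom.ext fun c => τ.commutes c, hinj, hτt, hspan, ht⟩

theorem isDomain_stalk_of_isClosed [IsAlgClosed K] (g : ℕ) [SmoothOfRelativeDimension g f]
    [LocallyOfFiniteType f] {p : A} (hp : IsClosed {p}) :
    IsDomain (A.presheaf.stalk p) := by
  obtain ⟨⟨x, hx⟩, hxp⟩ := (pointEquivClosedPoint f).surjective ⟨p, hp⟩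
  obtain rfl : x (IsLocalRing.closedPoint K) = p := congr(($hxp).1)
  obtain ⟨_, _, _, _, _, _, τ, -, -, -, hinj, -, -, -⟩ := exists_coord_stalk f g x hx
  have : IsDomain (MvPowerSeries (Fin g) K) := NoZeroDivisors.to_isDomain _
  exact hinj.isDomain τ


/-- Being a domain passes to the stalks at generalisations. -/
theorem isDomain_stalk_of_specializes {x p : A} (h : x ⤳ p) [IsDomain (A.presheaf.stalk p)] :
    IsDomain (A.presheaf.stalk x) := by
  obtain ⟨_, ⟨V, hV, rfl⟩, hpV, -⟩ :=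
    A.isBasis_affineOpens.exists_subset_of_mem_open (Set.mem_univ p) isOpen_univ
  have hxV : x ∈ V := h.mem_open V.2 hpV
  let : Algebra Γ(A, V) (A.presheaf.stalk p) := (A.presheaf.germ V p hpV).hom.toAlgebra
  let : Algebra Γ(A, V) (A.presheaf.stalk x) := (A.presheaf.germ V x hxV).hom.toAlgebra
  have hlocp := hV.isLocalization_stalk ⟨p, hpV⟩
  have hlocx := hV.isLocalization_stalk ⟨x, hxV⟩
  set P := (hV.primeIdealOf ⟨p, hpV⟩).asIdeal
  set Q := (hV.primeIdealOf ⟨x, hxV⟩).asIdeal
  have hQP : Q ≤ P := by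
    intro a ha
    by_contra hP
    have hu : IsUnit (algebraMap Γ(A, V) (A.presheaf.stalk p) a) :=
      IsLocalization.map_units (M := P.primeCompl) _ ⟨a, hP⟩
    have hu2 := hu.map (A.presheaf.stalkSpecializes h).hom
    have e1 : A.presheaf.stalkSpecializes h (algebraMap Γ(A, V) (A.presheaf.stalk p) a) =
        algebraMap Γ(A, V) (A.presheaf.stalk x) a :=
      congrArg (fun χ => χ.hom a) (A.presheaf.germ_stalkSpecializes hpV h)
    change IsUnit (A.presheaf.stalkSpecializes h _) at hu2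
    rw [e1] at hu2
    have hmem : algebraMap Γ(A, V) (A.presheaf.stalk x) a ∈ IsLocalRing.maximalIdeal _ := by
      rw [← IsLocalization.AtPrime.map_eq_maximalIdeal Q (A.presheaf.stalk x)]
      exact Ideal.mem_map_of_mem _ ha
    exact hmem hu2
  refine @NoZeroDivisors.to_isDomain _ _ inferInstance ⟨fun {a b} hab => ?_⟩
  obtain ⟨a, s, rfl⟩ := IsLocalization.exists_mk'_eq Q.primeCompl a
  obtain ⟨b, t, rfl⟩ := IsLocalization.exists_mk'_eq Q.primeCompl b
  rw [← IsLocalization.mk'_mul, IsLocalization.mk'_eq_zero_iff] at hab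
  obtain ⟨⟨v, hv⟩, hvab⟩ := hab
  have h0 : algebraMap Γ(A, V) (A.presheaf.stalk p) v * algebraMap Γ(A, V) (A.presheaf.stalk p) a *
      algebraMap Γ(A, V) (A.presheaf.stalk p) b = 0 := by
    rw [← map_mul, ← map_mul, mul_assoc, hvab, map_zero]
  have hzero : ∀ z, algebraMap Γ(A, V) (A.presheaf.stalk p) z = 0 → z ∈ Q ∧
      ∃ w : Q.primeCompl, (w : Γ(A, V)) * z = 0 := by
    intro z hz
    obtain ⟨⟨w, hw⟩, hwz⟩ :=
      (IsLocalization.map_eq_zero_iff P.primeCompl (A.presheaf.stalk p) z).mp hz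
    have hwQ : w ∉ Q := fun hq => hw (hQP hq)
    refine ⟨?_, ⟨w, hwQ⟩, hwz⟩
    exact (Ideal.IsPrime.mem_or_mem inferInstance (show w * z ∈ Q from hwz ▸ Q.zero_mem)).resolve_left
      hwQ
  rcases mul_eq_zero.mp h0 with h1 | h1
  · rcases mul_eq_zero.mp h1 with h2 | h2
    · exact absurd (hzero v h2).1 hv
    · exact Or.inl (IsLocalization.mk'_eq_zero_iff a s |>.mpr (hzero a h2).2)
  · exact Or.inr (IsLocalization.mk'_eq_zero_iff b t |>.mpr (hzero b h1).2)

/-- Every point of a Noetherian scheme with domain local rings has an irreducible open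
neighbourhood. -/
theorem exists_isPreirreducible_nhd [IsLocallyNoetherian A] (p : A)
    [IsDomain (A.presheaf.stalk p)] :
    ∃ W : Set A, IsOpen W ∧ p ∈ W ∧ IsPreirreducible W := by
  obtain ⟨_, ⟨V, hV, rfl⟩, hpV, -⟩ :=
    A.isBasis_affineOpens.exists_subset_of_mem_open (Set.mem_univ p) isOpen_univ
  let : Algebra Γ(A, V) (A.presheaf.stalk p) := (A.presheaf.germ V p hpV).hom.toAlgebra
  have hlocp := hV.isLocalization_stalk ⟨p, hpV⟩
  set P := (hV.primeIdealOf ⟨p, hpV⟩).asIdeal
  have : IsNoetherianRing Γ(A, V) := IsLocallyNoetherian.component_noetherian ⟨V, hV⟩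
  let q := RingHom.ker (algebraMap Γ(A, V) (A.presheaf.stalk p))
  have hq : q.IsPrime := RingHom.ker_isPrime _
  obtain ⟨G, hG⟩ := IsNoetherian.noetherian q
  classical
  have hk : ∀ z : Γ(A, V), ∃ w : P.primeCompl, z ∈ q → (w : Γ(A, V)) * z = 0 := fun z => by
    by_cases hz : z ∈ q
    · obtain ⟨w, hw⟩ := (IsLocalization.map_eq_zero_iff P.primeCompl (A.presheaf.stalk p) z).mp hz
      exact ⟨w, fun _ => hw⟩
    · exact ⟨1, fun h => absurd h hz⟩
  choose w hw using hk
  let v : P.primeCompl := ∏ z ∈ G, w z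
  have hv : ∀ z ∈ q, (v : Γ(A, V)) * z = 0 := by
    intro z hz
    rw [← hG] at hz
    refine Submodule.span_induction (p := fun z _ => (v : Γ(A, V)) * z = 0) ?_ (mul_zero _) ?_ ?_ hz
    · intro z hz
      obtain ⟨r, hr⟩ : (w z : Γ(A, V)) ∣ (v : Γ(A, V)) := by
        rw [Submonoid.coe_finsetProd]
        exact Finset.dvd_prod_of_mem _ hz
      rw [hr, mul_comm (w z : Γ(A, V)) r, mul_assoc, hw z (hG ▸ Ideal.subset_span hz), mul_zero]
    · intro a b _ _ ha hb; rw [mul_add, ha, hb, add_zero]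
    · intro a b _ hb; rw [smul_eq_mul, mul_left_comm, hb, mul_zero]
  let η : PrimeSpectrum Γ(A, V) := ⟨q, hq⟩
  have hvη : (v : Γ(A, V)) ∉ q := fun h => by
    have := IsLocalization.map_units (A.presheaf.stalk p) v
    rw [RingHom.mem_ker.mp h] at this
    exact not_isUnit_zero this
  let W : Set A := hV.fromSpec ''
    ((PrimeSpectrum.basicOpen (v : Γ(A, V)) : Opens (PrimeSpectrum Γ(A, V))) : Set (PrimeSpectrum Γ(A, V)))
  refine ⟨W, (have := hV.isOpenImmersion_fromSpec; hV.fromSpec.isOpenEmbedding.isOpenMap) _ (PrimeSpectrum.basicOpen _).isOpen,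
    ⟨hV.primeIdealOf ⟨p, hpV⟩, v.2, hV.fromSpec_primeIdealOf _⟩, ?_⟩
  have hgen : ∀ y ∈ W, hV.fromSpec η ⤳ y := by
    rintro _ ⟨y, hy, rfl⟩
    refine Specializes.map ((PrimeSpectrum.le_iff_specializes η y).mp ?_) hV.fromSpec.continuous
    intro z hz
    exact (Ideal.IsPrime.mem_or_mem y.2 (show (v : Γ(A, V)) * z ∈ y.asIdeal from
      (hv z hz) ▸ y.asIdeal.zero_mem)).resolve_left hy
  rintro U₁ U₂ hU₁ hU₂ ⟨y₁, hy₁, hy₁'⟩ ⟨y₂, hy₂, hy₂'⟩
  exact ⟨hV.fromSpec η, ⟨η, hvη, rfl⟩, (hgen y₁ hy₁).mem_open hU₁ hy₁',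
    (hgen y₂ hy₂).mem_open hU₂ hy₂'⟩

/-- A connected quasi-compact smooth scheme over an algebraically closed field is integral. -/
theorem isIntegral_of_smooth [IsAlgClosed K] (g : ℕ) [SmoothOfRelativeDimension g f]
    [LocallyOfFiniteType f] [QuasiCompact f] [hconn : ConnectedSpace A] : IsIntegral A := by
  have : IsLocallyNoetherian A := LocallyOfFiniteType.isLocallyNoetherian f
  have : CompactSpace A := QuasiCompact.compactSpace_of_compactSpace f
  have hdom : ∀ x : A, IsDomain (A.presheaf.stalk x) := by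
    intro x
    obtain ⟨p, hp, hpc⟩ := IsClosed.exists_closed_singleton (isClosed_closure (s := {x}))
      ⟨x, subset_closure rfl⟩
    have := isDomain_stalk_of_isClosed f g hpc
    exact isDomain_stalk_of_specializes (specializes_iff_mem_closure.mpr hp)
  have : IsReduced A := isReduced_of_isReduced_stalk A
  obtain ⟨x₀⟩ := hconn.toNonempty
  obtain ⟨W, hW, hxW, hWirr⟩ := exists_isPreirreducible_nhd x₀
  have hclosure : IsOpen (closure W) := by
    rw [isOpen_iff_forall_mem_open]
    intro y hy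
    obtain ⟨W', hW', hyW', hW'irr⟩ := exists_isPreirreducible_nhd y
    refine ⟨W', fun z hz => ?_, hW', hyW'⟩
    rw [mem_closure_iff]
    intro U hU hzU
    obtain ⟨a, haW', ha⟩ := mem_closure_iff.mp hy W' hW' hyW'
    obtain ⟨b, -, hbU, hb⟩ := hW'irr U W hU hW ⟨z, hz, hzU⟩ ⟨a, haW', ha⟩
    exact ⟨b, hbU, hb⟩
  have htop : closure W = Set.univ :=
    IsClopen.eq_univ ⟨isClosed_closure, hclosure⟩ ⟨x₀, subset_closure hxW⟩
  have hirr : IrreducibleSpace A :=
    { toNonempty := ⟨x₀⟩
      isPreirreducible_univ := htop ▸ hWirr.closure }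
  exact isIntegral_of_irreducibleSpace_of_isReduced A

end Fermat.Agent.Abelian.SchemeModel
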