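import Mathlib.AlgebraicGeometry.ValuativeCriterion
import Mathlib.AlgebraicGeometry.Morphisms.Separated
import Fermat.Prelude.Def_JacJ1Iface
import Fermat.Prelude.Def_GoodReductionJacobian_RelativeGroupLawKernel
import Fermat.Agent.Abelian.SchemeModel.Integral

/-!
# Points and local rings of a scheme over a field

The functor of points of a group scheme, the local rings inside the function field and the
correspondence between points with values in local rings and homomorphisms of local rings.

Team S26.
-/

set_option autoImplicit false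
set_option linter.style.haveILetI false

noncomputable section

universe u

open CategoryTheory AlgebraicGeometry TopologicalSpace NeronModelInfra GoodReductionJacobian

namespace Fermat.Agent.Abelian.SchemeModel

variable {K : Type u} [Field K] {A : Scheme.{u}} (f : A ⟶ Spec (CommRingCat.of K))

/-- The structure map of `Spec R`. -/
abbrev baseMap (K : Type u) [Field K] (R : Type u) [CommRing R] [Algebra K R] :
    Spec (CommRingCat.of R) ⟶ Spec (CommRingCat.of K) :=
  Spec.map (CommRingCat.ofHom (algebraMap K R))

/-- Points with values in a `K`-algebra. -/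
abbrev PtOf (R : Type u) [CommRing R] [Algebra K R] : Type u :=
  SchemeHomOver (baseMap K R) f

theorem baseMap_comp {R S : Type u} [CommRing R] [Algebra K R] [CommRing S] [Algebra K S]
    (φ : R →ₐ[K] S) :
    Spec.map (CommRingCat.ofHom φ.toRingHom) ≫ baseMap K R = baseMap K S := by
  rw [baseMap, baseMap, ← Spec.map_comp, ← CommRingCat.ofHom_comp]
  exact congrArg (fun χ => Spec.map (CommRingCat.ofHom χ)) φ.comp_algebraMap

variable {f}

/-- The group of points. -/
@[reducible]
def ptGroup (L : RelativeGroupLaw K f) (hc : L.IsCommutative) (R : Type u) [CommRing R]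
    [Algebra K R] : AddCommGroup (PtOf f R) :=
  { add := fun x y => L.mul (baseMap K R) x y
    zero := L.one (baseMap K R)
    neg := fun x => L.inv (baseMap K R) x
    add_assoc := fun x y z => L.mul_assoc (baseMap K R) x y z
    zero_add := fun x => L.one_mul (baseMap K R) x
    add_zero := fun x => L.mul_one (baseMap K R) x
    neg_add_cancel := fun x => L.inv_mul_cancel (baseMap K R) x
    add_comm := fun x y => hc.mul_comm (baseMap K R) x y
    nsmul := fun n x => L.nsmul (baseMap K R) n x
    nsmul_zero := fun _ => rfl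
    nsmul_succ := fun _ _ => rfl
    zsmul := @zsmulRec _ ⟨L.one (baseMap K R)⟩ ⟨fun x y => L.mul (baseMap K R) x y⟩
      ⟨fun x => L.inv (baseMap K R) x⟩ (fun n x => L.nsmul (baseMap K R) n x) }

/-- Functoriality of points. -/
def ptMap (L : RelativeGroupLaw K f) (hc : L.IsCommutative) {R S : Type u} [CommRing R]
    [Algebra K R] [CommRing S] [Algebra K S] (φ : R →ₐ[K] S) :
    letI := ptGroup L hc R
    letI := ptGroup L hc S
    PtOf f R →+ PtOf f S :=
  letI := ptGroup L hc R
  letI := ptGroup L hc S
  { toFun := schemeHomOverComp (Spec.map (CommRingCat.ofHom φ.toRingHom)) (baseMap_comp φ)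
    map_zero' := L.one_natural (baseMap K R) (baseMap K S) _ (baseMap_comp φ)
    map_add' := fun x y => L.mul_natural (baseMap K R) (baseMap K S) _ (baseMap_comp φ) x y }

theorem ptMap_coe (L : RelativeGroupLaw K f) (hc : L.IsCommutative) {R S : Type u} [CommRing R]
    [Algebra K R] [CommRing S] [Algebra K S] (φ : R →ₐ[K] S) (x : PtOf f R) :
    (ptMap L hc φ x).1 = Spec.map (CommRingCat.ofHom φ.toRingHom) ≫ x.1 := rfl

theorem ptMap_id (L : RelativeGroupLaw K f) (hc : L.IsCommutative) {R : Type u} [CommRing R]
    [Algebra K R] (x : PtOf f R) : ptMap L hc (AlgHom.id K R) x = x := by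
  refine Subtype.ext ?_
  rw [ptMap_coe]
  exact (Spec.map_id (CommRingCat.of R)).symm ▸ Category.id_comp x.1

theorem ptMap_comp (L : RelativeGroupLaw K f) (hc : L.IsCommutative) {R S T : Type u} [CommRing R]
    [Algebra K R] [CommRing S] [Algebra K S] [CommRing T] [Algebra K T]
    (φ : R →ₐ[K] S) (χ : S →ₐ[K] T) (x : PtOf f R) :
    ptMap L hc (χ.comp φ) x = ptMap L hc χ (ptMap L hc φ x) := by
  refine Subtype.ext ?_
  rw [ptMap_coe, ptMap_coe, ptMap_coe, ← Category.assoc, ← Spec.map_comp]
  rfl

theorem ptMap_injective [IsSeparated f] (L : RelativeGroupLaw K f) (hc : L.IsCommutative)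
    {R S : Type u} [CommRing R] [IsDomain R] [Algebra K R] [CommRing S] [IsDomain S] [Algebra K S]
    (φ : R →ₐ[K] S) (hφ : Function.Injective φ) : Function.Injective (ptMap L hc φ) := by
  intro x y h
  have : IsDominant (Spec.map (CommRingCat.ofHom φ.toRingHom)) :=
    ⟨(PrimeSpectrum.denseRange_comap_iff_ker_le_nilRadical φ.toRingHom).mpr
      (((RingHom.injective_iff_ker_eq_bot _).mp hφ).le.trans bot_le)⟩
  refine Subtype.ext (ext_of_isDominant_of_isSeparated f (x.2.trans y.2.symm)
    (Spec.map (CommRingCat.ofHom φ.toRingHom)) ?_)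
  rw [← ptMap_coe L hc φ x, ← ptMap_coe L hc φ y, h]

theorem ptMap_surjective [UniversallyClosed f] (L : RelativeGroupLaw K f) (hc : L.IsCommutative)
    {R F : Type u} [CommRing R] [IsDomain R] [ValuationRing R] [Field F] [Algebra K R]
    [Algebra K F] [Algebra R F] [IsScalarTower K R F] [IsFractionRing R F] :
    Function.Surjective (ptMap L hc (IsScalarTower.toAlgHom K R F)) := by
  intro y
  have hex : ValuativeCriterion.Existence f := by
    have h : UniversallyClosed f := inferInstance
    rw [UniversallyClosed.eq_valuativeCriterion] at h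
    exact h.1
  have hsq : CommSq y.1 (Spec.map (CommRingCat.ofHom (algebraMap R F))) f (baseMap K R) :=
    ⟨y.2.trans (baseMap_comp (IsScalarTower.toAlgHom K R F)).symm⟩
  obtain ⟨⟨l⟩⟩ := hex ⟨R, F, y.1, baseMap K R, hsq⟩
  exact ⟨⟨l.l, l.fac_right⟩, Subtype.ext l.fac_left⟩

/-- Torsion points over the base field. -/
def torsionEquiv (L : RelativeGroupLaw K f) (hc : L.IsCommutative) (n : ℕ) :
    {x : SchemeHomOver (𝟙 (Spec (CommRingCat.of K))) f //
        L.IsTorsionPoint (𝟙 (Spec (CommRingCat.of K))) n x} ≃
      (letI := ptGroup L hc K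
       {x : PtOf f K // n • x = 0}) := by
  have e : baseMap K K = 𝟙 (Spec (CommRingCat.of K)) := by
    rw [baseMap, Algebra.algebraMap_self, CommRingCat.ofHom_id, Spec.map_id]
  show {x : SchemeHomOver (𝟙 (Spec (CommRingCat.of K))) f //
      L.nsmul (𝟙 (Spec (CommRingCat.of K))) n x = L.one (𝟙 (Spec (CommRingCat.of K)))} ≃
    {x : SchemeHomOver (baseMap K K) f // L.nsmul (baseMap K K) n x = L.one (baseMap K K)}
  rw [e]

section LocalRings

variable (f) [IsIntegral A]

/-- The function field as a `K`-algebra. -/
@[reducible]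
def funcAlg : Algebra K A.functionField := (kStalk f (genericPoint A)).hom.toAlgebra

/-- The stalks as `K`-algebras. -/
@[reducible]
def stalkAlg (z : A) : Algebra K (A.presheaf.stalk z) := (kStalk f z).hom.toAlgebra

theorem genericPoint_specializes' (z : A) : genericPoint A ⤳ z :=
  (genericPoint_spec A).specializes trivial

/-- The map of a stalk into the function field. -/
def toFunc (z : A) :
    letI := funcAlg f
    letI := stalkAlg f z
    A.presheaf.stalk z →ₐ[K] A.functionField :=
  letI := funcAlg f
  letI := stalkAlg f z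
  { (A.presheaf.stalkSpecializes (genericPoint_specializes' z)).hom with
    commutes' := fun c =>
      congrArg (fun χ => χ.hom c) (kStalk_stalkSpecializes f (genericPoint_specializes' z)) }

theorem toFunc_injective (z : A) : Function.Injective (toFunc f z) :=
  IsFractionRing.injective (A.presheaf.stalk z) A.functionField

theorem toFunc_stalkSpecializes {z' z : A} (h : z' ⤳ z) (a : A.presheaf.stalk z) :
    toFunc f z' (A.presheaf.stalkSpecializes h a) = toFunc f z a :=
  congrArg (fun χ => χ.hom a) (A.presheaf.stalkSpecializes_comp (genericPoint_specializes' z') h)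

/-- The local rings inside the function field. -/
def locRing (z : A) : @Subalgebra K A.functionField _ _ (funcAlg f) :=
  letI := funcAlg f
  letI := stalkAlg f z
  (toFunc f z).range

theorem toFunc_mem_locRing (z : A) (a : A.presheaf.stalk z) :
    letI := funcAlg f
    toFunc f z a ∈ locRing f z := ⟨a, rfl⟩

theorem locRing_le {z' z : A} (h : z' ⤳ z) : locRing f z ≤ locRing f z' := by
  rintro _ ⟨a, rfl⟩
  exact ⟨A.presheaf.stalkSpecializes h a, toFunc_stalkSpecializes f h a⟩

theorem locRing_generic : locRing f (genericPoint A) = (letI := funcAlg f; ⊤) := by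
  letI := funcAlg f
  refine top_le_iff.mp fun x _ => ⟨x, ?_⟩
  show A.presheaf.stalkSpecializes (genericPoint_specializes' (genericPoint A)) x = x
  rw [TopCat.Presheaf.stalkSpecializes_refl]
  rfl

/-- A stalk is isomorphic to its image in the function field. -/
def stalkEquiv (z : A) :
    letI := funcAlg f
    letI := stalkAlg f z
    A.presheaf.stalk z ≃ₐ[K] locRing f z :=
  letI := funcAlg f
  letI := stalkAlg f z
  AlgEquiv.ofInjective (toFunc f z) (toFunc_injective f z)

theorem coe_stalkEquiv (z : A) (a : A.presheaf.stalk z) :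
    letI := funcAlg f
    letI := stalkAlg f z
    (stalkEquiv f z a : A.functionField) = toFunc f z a := rfl

theorem isLocalRing_locRing (z : A) : IsLocalRing (locRing f z) :=
  letI := funcAlg f
  letI := stalkAlg f z
  (stalkEquiv f z).toRingEquiv.isLocalRing

theorem isNoetherianRing_locRing [IsLocallyNoetherian A] (z : A) :
    IsNoetherianRing (locRing f z) :=
  letI := funcAlg f
  letI := stalkAlg f z
  isNoetherianRing_of_ringEquiv _ (stalkEquiv f z).toRingEquiv

theorem exists_div_locRing (z : A) (x : A.functionField) :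
    letI := funcAlg f
    ∃ a b : locRing f z, (b : A.functionField) ≠ 0 ∧ x * b = a := by
  letI := funcAlg f
  obtain ⟨a, b, hb, rfl⟩ := IsFractionRing.div_surjective (A := A.presheaf.stalk z) x
  have hb' : toFunc f z b ≠ 0 := fun h0 =>
    nonZeroDivisors.ne_zero hb (toFunc_injective f z (h0.trans (map_zero _).symm))
  exact ⟨⟨_, toFunc_mem_locRing f z a⟩, ⟨_, toFunc_mem_locRing f z b⟩, hb', div_mul_cancel₀ _ hb'⟩

variable {R : Type u} [CommRing R] [Algebra K R]

/-- The point attached to a homomorphism out of a local ring. -/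
def ptOfHom (z : A) (ψ : letI := funcAlg f; locRing f z →ₐ[K] R) : PtOf f R :=
  letI := funcAlg f
  letI := stalkAlg f z
  ⟨Spec.map (CommRingCat.ofHom (R := A.presheaf.stalk z) (S := R)
      (ψ.comp (stalkEquiv f z).toAlgHom).toRingHom) ≫ A.fromSpecStalk z, by
    rw [Category.assoc, fromSpecStalk_comp, ← Spec.map_comp]
    exact congrArg Spec.map (CommRingCat.hom_ext (RingHom.ext fun c =>
      (ψ.comp (stalkEquiv f z).toAlgHom).commutes c))⟩

theorem ptOfHom_injective (z : A) : Function.Injective (ptOfHom f (R := R) z) := by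
  letI := funcAlg f
  letI := stalkAlg f z
  intro ψ ψ' h
  have h1 := congrArg Subtype.val h
  simp only [ptOfHom, cancel_mono] at h1
  have h2 := congrArg CommRingCat.Hom.hom (Spec.map_injective h1)
  refine AlgHom.ext fun v => ?_
  obtain ⟨a, rfl⟩ := (stalkEquiv f z).surjective v
  exact RingHom.congr_fun h2 a

theorem ptMap_ptOfHom (L : RelativeGroupLaw K f) (hc : L.IsCommutative) {S : Type u} [CommRing S]
    [Algebra K S] (φ : R →ₐ[K] S) (z : A) (ψ : letI := funcAlg f; locRing f z →ₐ[K] R) :
    ptMap L hc φ (ptOfHom f z ψ) = ptOfHom f z (letI := funcAlg f; φ.comp ψ) := by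
  refine Subtype.ext ?_
  rw [ptMap_coe]
  simp only [ptOfHom]
  rw [← Category.assoc, ← Spec.map_comp]
  rfl

theorem ptOfHom_inclusion {z' z : A} (h : z' ⤳ z)
    (ψ : letI := funcAlg f; locRing f z' →ₐ[K] R) :
    ptOfHom f z (letI := funcAlg f; ψ.comp (Subalgebra.inclusion (locRing_le f h))) =
      ptOfHom f z' ψ := by
  letI := funcAlg f
  refine Subtype.ext ?_
  simp only [ptOfHom]
  rw [← Scheme.SpecMap_stalkSpecializes_fromSpecStalk h, ← Category.assoc, ← Spec.map_comp]
  congr 2
  refine CommRingCat.hom_ext (RingHom.ext fun a => ?_)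
  letI := stalkAlg f z
  letI := stalkAlg f z'
  show ψ (Subalgebra.inclusion (locRing_le f h) (stalkEquiv f z a)) =
    ψ (stalkEquiv f z' (A.presheaf.stalkSpecializes h a))
  refine congrArg ψ (Subtype.ext ?_)
  exact (toFunc_stalkSpecializes f h a).symm

variable [IsLocalRing R]

/-- The centre of a point with values in a local ring. -/
def centreOf (x : PtOf f R) : A := x.1 (IsLocalRing.closedPoint R)

/-- The homomorphism of local rings of a point with values in a local ring. -/
def homOf (x : PtOf f R) :
    letI := funcAlg f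
    locRing f (centreOf f x) →ₐ[K] R :=
  letI := funcAlg f
  letI := stalkAlg f (centreOf f x)
  let σ : A.presheaf.stalk (centreOf f x) →ₐ[K] R :=
    { (Scheme.stalkClosedPointTo (R := CommRingCat.of R) x.1).hom with
      commutes' := fun c => congrArg (fun χ => χ.hom c)
        (kStalk_stalkClosedPointTo f (R := CommRingCat.of R) x.1 _ x.2) }
  σ.comp (stalkEquiv f (centreOf f x)).symm.toAlgHom

theorem homOf_stalkEquiv (x : PtOf f R) (a : A.presheaf.stalk (centreOf f x)) :
    letI := funcAlg f
    letI := stalkAlg f (centreOf f x)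
    homOf f x (stalkEquiv f (centreOf f x) a) =
      Scheme.stalkClosedPointTo (R := CommRingCat.of R) x.1 a :=
  letI := funcAlg f
  letI := stalkAlg f (centreOf f x)
  congrArg (Scheme.stalkClosedPointTo (R := CommRingCat.of R) x.1)
    ((stalkEquiv f (centreOf f x)).symm_apply_apply a)

theorem isLocalHom_homOf (x : PtOf f R) :
    IsLocalHom (letI := funcAlg f; (homOf f x).toRingHom) := by
  letI := funcAlg f
  letI := stalkAlg f (centreOf f x)
  refine ⟨fun v hv => ?_⟩
  obtain ⟨a, rfl⟩ := (stalkEquiv f (centreOf f x)).surjective v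
  have hv' : IsUnit (Scheme.stalkClosedPointTo (R := CommRingCat.of R) x.1 a) := by
    rw [← homOf_stalkEquiv]; exact hv
  exact ((Scheme.isLocalHom_stalkClosedPointTo' (R := R) x.1).map_nonunit a hv').map _

theorem ptOfHom_homOf (x : PtOf f R) : ptOfHom f (centreOf f x) (homOf f x) = x := by
  letI := funcAlg f
  refine Subtype.ext ?_
  simp only [ptOfHom]
  refine Eq.trans ?_ (Scheme.Spec_stalkClosedPointTo_fromSpecStalk (R := CommRingCat.of R) x.1)
  refine congrArg (· ≫ _) (congrArg Spec.map (CommRingCat.hom_ext (RingHom.ext fun a => ?_)))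
  exact homOf_stalkEquiv f x a

theorem centreOf_ptOfHom (z : A) (ψ : letI := funcAlg f; locRing f z →ₐ[K] R)
    (hψ : IsLocalHom (letI := funcAlg f; ψ.toRingHom)) : centreOf f (ptOfHom f z ψ) = z := by
  letI := funcAlg f
  letI := stalkAlg f z
  have : IsLocalHom (CommRingCat.ofHom (R := A.presheaf.stalk z) (S := R)
      (ψ.comp (stalkEquiv f z).toAlgHom).toRingHom).hom := by
    refine ⟨fun a ha => ?_⟩
    have h2 : IsUnit (stalkEquiv f z a) := IsUnit.of_map ψ.toRingHom _ ha
    have h3 := h2.map (stalkEquiv f z).symm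
    rwa [AlgEquiv.symm_apply_apply] at h3
  simp only [centreOf, ptOfHom]
  refine (Scheme.Hom.comp_apply _ _ _).trans ?_
  refine (congrArg _ (Spec_closedPoint (R := A.presheaf.stalk z) (S := CommRingCat.of R))).trans ?_
  exact Scheme.fromSpecStalk_closedPoint

omit [IsIntegral A] in
theorem centreOf_ptMap (L : RelativeGroupLaw K f) (hc : L.IsCommutative) {S : Type u} [CommRing S]
    [IsLocalRing S] [Algebra K S] (φ : R →ₐ[K] S) (x : PtOf f R) :
    centreOf f (ptMap L hc φ x) ⤳ centreOf f x := by
  unfold centreOf
  rw [ptMap_coe]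
  exact (specializes_of_eq (Scheme.Hom.comp_apply _ _ _)).trans
    ((IsLocalRing.specializes_closedPoint _).map x.1.continuous)

end LocalRings

end Fermat.Agent.Abelian.SchemeModel
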