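import Mathlib.AlgebraicGeometry.Morphisms.FiniteType
import Mathlib.RingTheory.EssentialFiniteness
import Fermat.Agent.Abelian.Variety
import Fermat.Agent.Abelian.SchemeModel.Points

/-!
# Affine charts inside the function field

Team S26.
-/

set_option autoImplicit false
set_option linter.style.haveILetI false

noncomputable section

universe u

open CategoryTheory AlgebraicGeometry TopologicalSpace NeronModelInfra GoodReductionJacobian

namespace Fermat.Agent.Abelian.SchemeModel

variable {K : Type u} [Field K] {A : Scheme.{u}} (f : A ⟶ Spec (CommRingCat.of K))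

/-- The sections as `K`-algebras. -/
@[reducible]
def secAlg (U : A.Opens) : Algebra K Γ(A, U) := (kSection f U).hom.toAlgebra

theorem finiteType_sections [LocallyOfFiniteType f] {U : A.Opens} (hU : IsAffineOpen U) :
    (letI := secAlg f U; Algebra.FiniteType K Γ(A, U)) := by
  have h := f.finiteType_appLE (isAffineOpen_top _) hU (le_top : U ≤ f ⁻¹ᵁ ⊤)
  have h2 : ((f.appLE ⊤ U le_top).hom.comp
      (Scheme.ΓSpecIso (CommRingCat.of K)).symm.commRingCatIsoToRingEquiv.toRingHom).FiniteType :=
    h.comp (RingHom.FiniteType.of_surjective _ (RingEquiv.surjective _))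
  exact h2

/-- Sections over an affine open map isomorphically onto the quotient description of stalks. -/
theorem exists_germ_mul_eq {U : A.Opens} (hU : IsAffineOpen U) {z : A} (hz : z ∈ U)
    (x : A.presheaf.stalk z) :
    ∃ a b : Γ(A, U), IsUnit (A.presheaf.germ U z hz b) ∧
      x * A.presheaf.germ U z hz b = A.presheaf.germ U z hz a := by
  let : Algebra Γ(A, U) (A.presheaf.stalk z) := (A.presheaf.germ U z hz).hom.toAlgebra
  have := hU.isLocalization_stalk ⟨z, hz⟩
  obtain ⟨a, b, rfl⟩ :=
    IsLocalization.exists_mk'_eq (hU.primeIdealOf ⟨z, hz⟩).asIdeal.primeCompl x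
  exact ⟨a, b, IsLocalization.map_units _ b, IsLocalization.mk'_spec _ a b⟩

theorem fromSpec_comp {U : A.Opens} (hU : IsAffineOpen U) :
    hU.fromSpec ≫ f = Spec.map (kSection f U) := by
  have h := IsAffineOpen.SpecMap_appLE_fromSpec f (isAffineOpen_top _) hU (le_top : U ≤ f ⁻¹ᵁ ⊤)
  rw [IsAffineOpen.fromSpec_top, Scheme.isoSpec_Spec_inv, ← Spec.map_comp] at h
  exact h.symm

section

variable [IsIntegral A]

/-- The map from sections to the function field. -/
def secToFunc (U : A.Opens) (hU : genericPoint A ∈ U) :
    letI := secAlg f U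
    letI := funcAlg f
    Γ(A, U) →ₐ[K] A.functionField :=
  letI := secAlg f U
  letI := funcAlg f
  { (A.presheaf.germ U (genericPoint A) hU).hom with
    commutes' := fun c => congrArg (fun χ => χ.hom c) (kSection_germ f U (genericPoint A) hU) }

theorem genericPoint_mem {U : A.Opens} {z : A} (hz : z ∈ U) : genericPoint A ∈ U :=
  (genericPoint_specializes' z).mem_open U.2 hz

theorem toFunc_germ {U : A.Opens} {z : A} (hz : z ∈ U) (a : Γ(A, U)) :
    toFunc f z (A.presheaf.germ U z hz a) = secToFunc f U (genericPoint_mem hz) a :=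
  congrArg (fun χ => χ.hom a) (A.presheaf.germ_stalkSpecializes hz (genericPoint_specializes' z))

/-- The ring of an affine chart. -/
def chartRing (U : A.Opens) (hU : genericPoint A ∈ U) :
    @Subalgebra K A.functionField _ _ (funcAlg f) :=
  letI := secAlg f U
  letI := funcAlg f
  (secToFunc f U hU).range

theorem chartRing_le {U : A.Opens} (hg : genericPoint A ∈ U) {z : A} (hz : z ∈ U) :
    chartRing f U hg ≤ locRing f z := by
  rintro _ ⟨a, rfl⟩
  exact ⟨A.presheaf.germ U z hz a, toFunc_germ f hz a⟩

theorem chartRing_fg [LocallyOfFiniteType f] {U : A.Opens} (hU : IsAffineOpen U)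
    (hg : genericPoint A ∈ U) : (letI := funcAlg f; (chartRing f U hg).FG) := by
  letI := secAlg f U
  letI := funcAlg f
  have : Algebra.FiniteType K Γ(A, U) := finiteType_sections f hU
  show ((secToFunc f U hg).range).FG
  rw [← Algebra.map_top]
  exact Subalgebra.FG.map _ Algebra.FiniteType.out

theorem isQuotientIn_chartRing {U : A.Opens} (hU : IsAffineOpen U) (hg : genericPoint A ∈ U)
    {z : A} (hz : z ∈ U) (x : A.functionField) (hx : x ∈ locRing f z) :
    letI := funcAlg f
    IsQuotientIn (chartRing f U hg) (locRing f z) x := by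
  obtain ⟨x, rfl⟩ := hx
  obtain ⟨a, b, hb, hab⟩ := exists_germ_mul_eq hU hz x
  obtain ⟨u, hu⟩ := hb
  letI := secAlg f U
  letI := funcAlg f
  letI := stalkAlg f z
  refine ⟨secToFunc f U hg a, ⟨a, rfl⟩, secToFunc f U hg b, ⟨b, rfl⟩, toFunc f z ↑u⁻¹,
    ⟨↑u⁻¹, rfl⟩, ?_, ?_⟩
  · rw [← toFunc_germ f hz b, ← hu, ← map_mul, Units.mul_inv, map_one]
  · show toFunc f z x = _
    rw [← toFunc_germ f hz a, ← map_mul, ← hab, ← hu, Units.mul_inv_cancel_right]

theorem isQuotientIn_locRing {z' z : A} (h : z' ⤳ z) (x : A.functionField)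
    (hx : x ∈ locRing f z') :
    letI := funcAlg f
    IsQuotientIn (locRing f z) (locRing f z') x := by
  obtain ⟨_, ⟨U, hU, rfl⟩, hzU, -⟩ :=
    A.isBasis_affineOpens.exists_subset_of_mem_open (Set.mem_univ z) isOpen_univ
  obtain ⟨a, ha, b, hb, c, hc, h1, h2⟩ := isQuotientIn_chartRing f hU (genericPoint_mem hzU)
    (h.mem_open U.2 hzU) x hx
  exact ⟨a, chartRing_le f _ hzU ha, b, chartRing_le f _ hzU hb, c, hc, h1, h2⟩

theorem essFiniteType_functionField [LocallyOfFiniteType f] :
    (letI := funcAlg f; Algebra.EssFiniteType K A.functionField) := by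
  letI := funcAlg f
  obtain ⟨_, ⟨U, hU, rfl⟩, hgU, -⟩ :=
    A.isBasis_affineOpens.exists_subset_of_mem_open (Set.mem_univ (genericPoint A)) isOpen_univ
  letI := secAlg f U
  have : Algebra.FiniteType K Γ(A, U) := finiteType_sections f hU
  have hne : Nonempty U := ⟨⟨_, hgU⟩⟩
  have := functionField_isFractionRing_of_isAffineOpen A U hU
  have : IsScalarTower K Γ(A, U) A.functionField :=
    IsScalarTower.of_algebraMap_eq fun c =>
      (congrArg (fun χ => χ.hom c) (kSection_germ f U (genericPoint A) hgU)).symm
  have : Algebra.EssFiniteType Γ(A, U) A.functionField :=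
    Algebra.EssFiniteType.of_isLocalization _ (nonZeroDivisors Γ(A, U))
  exact Algebra.EssFiniteType.comp K Γ(A, U) A.functionField

/-- Charts: a point lies in a chart as soon as its generic values are integral. -/
theorem exists_chartRing [IsSeparated f] [LocallyOfFiniteType f] (L : RelativeGroupLaw K f)
    (hc : L.IsCommutative) (w : A) :
    letI := funcAlg f
    ∃ B : Subalgebra K A.functionField, B.FG ∧ B ≤ locRing f w ∧
      ∀ {R F : Type u} [CommRing R] [IsDomain R] [IsLocalRing R] [Field F] [Algebra K R]
        [Algebra K F] (ι : R →ₐ[K] F), Function.Injective ι → ∀ (x : PtOf f R) (y : PtOf f F),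
        ptMap L hc ι x = y → centreOf f y = w →
        (∀ b ∈ B, ∀ h : b ∈ locRing f (centreOf f y), homOf f y ⟨b, h⟩ ∈ Set.range ι) →
        B ≤ locRing f (centreOf f x) ∧
          ∀ v ∈ locRing f (centreOf f x), IsQuotientIn B (locRing f (centreOf f x)) v := by
  letI := funcAlg f
  obtain ⟨_, ⟨U, hU, rfl⟩, hwU, -⟩ :=
    A.isBasis_affineOpens.exists_subset_of_mem_open (Set.mem_univ w) isOpen_univ
  have hU : IsAffineOpen U := hU
  have hg := genericPoint_mem hwU
  refine ⟨chartRing f U hg, chartRing_fg f hU hg, chartRing_le f hg hwU, ?_⟩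
  intro R F _ _ _ _ _ _ ι hι x y hxy hy hb
  have hyU : centreOf f y ∈ U := hy ▸ hwU
  letI := secAlg f U
  letI := stalkAlg f (centreOf f y)
  let β : Γ(A, U) →+* F :=
    (Scheme.stalkClosedPointTo (R := CommRingCat.of F) y.1).hom.comp
      (A.presheaf.germ U (centreOf f y) hyU).hom
  have hβ : ∀ a, β a ∈ ι.toRingHom.range := by
    intro a
    obtain ⟨r, hr⟩ := hb (secToFunc f U hg a) ⟨a, rfl⟩ (chartRing_le f hg hyU ⟨a, rfl⟩)
    refine ⟨r, hr.trans ?_⟩
    have h := homOf_stalkEquiv f y (A.presheaf.germ U (centreOf f y) hyU a)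
    refine Eq.trans (congrArg (homOf f y) (Subtype.ext ?_)) h
    exact (toFunc_germ f hyU a).symm
  choose θ0 hθ0 using hβ
  let θ : Γ(A, U) →+* R :=
    { toFun := θ0
      map_one' := hι ((hθ0 1).trans ((map_one β).trans (map_one ι).symm))
      map_zero' := hι ((hθ0 0).trans ((map_zero β).trans (map_zero ι).symm))
      map_add' := fun a b => hι (by
        rw [map_add]
        exact (hθ0 (a + b)).trans ((map_add β a b).trans (congrArg₂ (· + ·) (hθ0 a).symm (hθ0 b).symm)))
      map_mul' := fun a b => hι (by
        rw [map_mul]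
        exact (hθ0 (a * b)).trans ((map_mul β a b).trans (congrArg₂ (· * ·) (hθ0 a).symm (hθ0 b).symm))) }
  have hθβ : ι.toRingHom.comp θ = β := RingHom.ext hθ0
  have hθK : θ.comp (kSection f U).hom = algebraMap K R := by
    refine RingHom.ext fun c => hι ?_
    rw [AlgHom.commutes]
    have h1 : (kSection f U ≫ A.presheaf.germ U (centreOf f y) hyU) ≫
        Scheme.stalkClosedPointTo (R := CommRingCat.of F) y.1 =
          CommRingCat.ofHom (algebraMap K F) := by
      rw [kSection_germ]
      exact kStalk_stalkClosedPointTo f (R := CommRingCat.of F) y.1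
        (CommRingCat.ofHom (algebraMap K F)) y.2
    have h2 : β ((kSection f U).hom c) = algebraMap K F c :=
      RingHom.congr_fun (congrArg CommRingCat.Hom.hom h1) c
    exact (hθ0 _).trans h2
  let x' : PtOf f R := ⟨Spec.map (CommRingCat.ofHom θ) ≫ hU.fromSpec, by
    rw [Category.assoc, fromSpec_comp, ← Spec.map_comp]
    exact congrArg Spec.map (CommRingCat.hom_ext hθK)⟩
  have hxx' : x = x' := by
    refine ptMap_injective L hc ι hι (hxy.trans (Subtype.ext ?_))
    rw [ptMap_coe]
    refine Eq.trans ?_ (Category.assoc _ _ _)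
    rw [← Spec.map_comp, ← CommRingCat.ofHom_comp, hθβ]
    refine (Scheme.Spec_stalkClosedPointTo_fromSpecStalk (R := CommRingCat.of F) y.1).symm.trans ?_
    have h3 : Spec.map (Scheme.stalkClosedPointTo (R := CommRingCat.of F) y.1) ≫
        hU.fromSpecStalk hyU = Spec.map (CommRingCat.ofHom β) ≫ hU.fromSpec := by
      show Spec.map (Scheme.stalkClosedPointTo (R := CommRingCat.of F) y.1) ≫
        (Spec.map (A.presheaf.germ U (centreOf f y) hyU) ≫ hU.fromSpec) = _
      rw [← Category.assoc]
      exact congrArg (· ≫ hU.fromSpec) (Spec.map_comp _ _).symm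
    exact (congrArg (Spec.map (Scheme.stalkClosedPointTo (R := CommRingCat.of F) y.1) ≫ ·)
      (hU.fromSpecStalk_eq_fromSpecStalk hyU).symm).trans h3
  have hxU : centreOf f x ∈ U := by
    rw [hxx']
    show (Spec.map (CommRingCat.ofHom θ) ≫ hU.fromSpec) _ ∈ (U : Set A)
    rw [← hU.range_fromSpec]
    exact ⟨_, (Scheme.Hom.comp_apply _ _ _).symm⟩
  exact ⟨chartRing_le f hg hxU, fun v hv => isQuotientIn_chartRing f hU hg hxU v hv⟩

end

/-- Coordinates at rational points, inside the function field. -/
theorem exists_coord_locRing [IsIntegral A] [LocallyOfFiniteType f] (g : ℕ)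
    [SmoothOfRelativeDimension g f] (p : PtOf f K) :
    letI := funcAlg f
    ∃ (t : Fin g → locRing f (centreOf f p))
      (τ : locRing f (centreOf f p) →ₐ[K] MvPowerSeries (Fin g) K),
      Function.Injective τ ∧ (∀ i, τ (t i) = MvPowerSeries.X i) ∧
      (Ideal.span (Set.range t) : Ideal (locRing f (centreOf f p))) =
        @IsLocalRing.maximalIdeal _ _ (isLocalRing_locRing f (centreOf f p)) ∧
      Algebra.IsAlgebraic (Algebra.adjoin K (Set.range fun i => (t i : A.functionField)))
        A.functionField := by
  letI := funcAlg f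
  have hp : p.1 ≫ f = 𝟙 _ := by
    refine p.2.trans ?_
    rw [baseMap, Algebra.algebraMap_self, CommRingCat.ofHom_id, Spec.map_id]
  have hcoord : ∃ (V : A.Opens) (_ : IsAffineOpen V) (hpV : centreOf f p ∈ V)
      (φ : MvPolynomial (Fin g) K →+* Γ(A, V))
      (c : Fin g → K) (t : Fin g → A.presheaf.stalk (centreOf f p))
      (τ : A.presheaf.stalk (centreOf f p) →+* MvPowerSeries (Fin g) K),
      φ.comp MvPolynomial.C = (kSection f V).hom ∧ φ.Etale ∧
      τ.comp (kStalk f _).hom = algebraMap K (MvPowerSeries (Fin g) K) ∧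
      Function.Injective τ ∧ (∀ i, τ (t i) = MvPowerSeries.X i) ∧
      Ideal.span (Set.range t) = IsLocalRing.maximalIdeal _ ∧
      ∀ i, t i = A.presheaf.germ V _ hpV (φ (MvPolynomial.X i) - kSection f V (c i)) :=
    exists_coord_stalk f g p.1 hp
  obtain ⟨V, hV, hpV, φ, c, t, τ, hφ, hφe, hτK, hinj, hτt, hspan, ht⟩ := hcoord
  letI := stalkAlg f (centreOf f p)
  haveI := isLocalRing_locRing f (centreOf f p)
  let e := stalkEquiv f (centreOf f p)
  let τ' : A.presheaf.stalk (centreOf f p) →ₐ[K] MvPowerSeries (Fin g) K :=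
    { τ with commutes' := fun c => RingHom.congr_fun hτK c }
  refine ⟨fun i => e (t i), τ'.comp e.symm.toAlgHom, hinj.comp e.symm.injective,
    fun i => (congrArg τ (e.symm_apply_apply (t i))).trans (hτt i), ?_, ?_⟩
  · refine le_antisymm (Ideal.span_le.mpr ?_) ?_
    · rintro _ ⟨i, rfl⟩ hu
      have hmem : t i ∈ IsLocalRing.maximalIdeal (A.presheaf.stalk (centreOf f p)) :=
        (hspan.le : _) (Ideal.subset_span ⟨i, rfl⟩)
      have h1 := hu.map e.symm
      rw [AlgEquiv.symm_apply_apply] at h1
      exact hmem h1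
    · intro v hv
      obtain ⟨a, rfl⟩ := e.surjective v
      have ha : a ∈ IsLocalRing.maximalIdeal (A.presheaf.stalk (centreOf f p)) :=
        fun hu => hv (hu.map e)
      have ha' : a ∈ Ideal.span (Set.range t) := (hspan.ge : _) ha
      have h := Ideal.mem_map_of_mem e.toAlgHom.toRingHom ha'
      rw [Ideal.map_span, ← Set.range_comp] at h
      exact h
  -- algebraicity
  letI := secAlg f V
  have hg := genericPoint_mem hpV
  let s := secToFunc f V hg
  let χ : MvPolynomial (Fin g) K →+* A.functionField := s.toRingHom.comp φ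
  have hχC : ∀ c, χ (MvPolynomial.C c) = algebraMap K A.functionField c := fun c => by
    show s (φ (MvPolynomial.C c)) = _
    rw [show φ (MvPolynomial.C c) = algebraMap K Γ(A, V) c from RingHom.congr_fun hφ c,
      AlgHom.commutes]
  have hχt : ∀ i, χ (MvPolynomial.X i) = (e (t i) : A.functionField) + algebraMap K _ (c i) := by
    intro i
    rw [coe_stalkEquiv, ht i, toFunc_germ f hpV, map_sub]
    show _ = s (φ (MvPolynomial.X i)) - s (algebraMap K Γ(A, V) (c i)) + _
    rw [AlgHom.commutes, sub_add_cancel]
    rfl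
  have hχinj : Function.Injective χ := by
    have key : ∀ q, χ q = toFunc f (centreOf f p) (A.presheaf.germ V _ hpV (φ q)) :=
      fun q => (toFunc_germ f hpV (φ q)).symm
    let back : MvPolynomial (Fin g) K →ₐ[K] MvPolynomial (Fin g) K :=
      MvPolynomial.aeval fun i => MvPolynomial.X i + MvPolynomial.C (c i)
    have hback : Function.Injective back := by
      let back' : MvPolynomial (Fin g) K →ₐ[K] MvPolynomial (Fin g) K :=
        MvPolynomial.aeval fun i => MvPolynomial.X i - MvPolynomial.C (c i)
      have h1 : back'.comp back = AlgHom.id K _ := MvPolynomial.algHom_ext fun i => by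
        simp [back, back']
      exact Function.LeftInverse.injective (g := back') fun q => AlgHom.congr_fun h1 q
    have hτφ : (τ.comp (A.presheaf.germ V _ hpV).hom).comp φ =
        MvPolynomial.coeToMvPowerSeries.ringHom.comp back.toRingHom := by
      refine MvPolynomial.ringHom_ext (fun a => ?_) fun i => ?_
      · show τ (A.presheaf.germ V _ hpV (φ (MvPolynomial.C a))) = _
        rw [show φ (MvPolynomial.C a) = (kSection f V).hom a from RingHom.congr_fun hφ a,
          show A.presheaf.germ V _ hpV ((kSection f V).hom a) = (kStalk f (centreOf f p)).hom a from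
            congrArg (fun χ => χ.hom a) (kSection_germ f V _ hpV)]
        refine (RingHom.congr_fun hτK a).trans ?_
        simp [MvPowerSeries.algebraMap_apply]
      · show τ (A.presheaf.germ V _ hpV (φ (MvPolynomial.X i))) = _
        have h1 : A.presheaf.germ V _ hpV (φ (MvPolynomial.X i)) =
            t i + (kStalk f (centreOf f p)).hom (c i) := by
          rw [ht i, map_sub, show A.presheaf.germ V _ hpV ((kSection f V) (c i)) =
            (kStalk f (centreOf f p)).hom (c i) from
              congrArg (fun χ => χ.hom (c i)) (kSection_germ f V _ hpV)]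
          exact (sub_add_cancel _ _).symm
        rw [h1, map_add, hτt i, show τ ((kStalk f (centreOf f p)).hom (c i)) =
          algebraMap K _ (c i) from RingHom.congr_fun hτK (c i)]
        simp [back, MvPowerSeries.algebraMap_apply]
    intro q q' h
    rw [key, key] at h
    have h2 := congrArg τ (toFunc_injective f _ h)
    have h3 := (RingHom.congr_fun hτφ q).symm.trans (h2.trans (RingHom.congr_fun hτφ q'))
    exact hback (MvPolynomial.coe_injective _ _ h3)
  letI : Algebra (MvPolynomial (Fin g) K) Γ(A, V) := φ.toAlgebra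
  letI : Algebra (MvPolynomial (Fin g) K) A.functionField := χ.toAlgebra
  letI : Algebra Γ(A, V) A.functionField := s.toRingHom.toAlgebra
  have : IsScalarTower (MvPolynomial (Fin g) K) Γ(A, V) A.functionField :=
    IsScalarTower.of_algebraMap_eq fun q => rfl
  have : Algebra.Etale (MvPolynomial (Fin g) K) Γ(A, V) := hφe
  have hne : Nonempty V := ⟨⟨_, hpV⟩⟩
  have hfrac : IsFractionRing Γ(A, V) A.functionField :=
    functionField_isFractionRing_of_isAffineOpen A V hV
  have : Algebra.FormallyUnramified Γ(A, V) A.functionField :=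
    Algebra.FormallyUnramified.of_isLocalization (nonZeroDivisors Γ(A, V))
  have : Algebra.FormallyUnramified (MvPolynomial (Fin g) K) A.functionField :=
    Algebra.FormallyUnramified.comp _ Γ(A, V) _
  have : Algebra.EssFiniteType Γ(A, V) A.functionField :=
    Algebra.EssFiniteType.of_isLocalization _ (nonZeroDivisors Γ(A, V))
  have : Algebra.EssFiniteType (MvPolynomial (Fin g) K) A.functionField :=
    Algebra.EssFiniteType.comp _ Γ(A, V) _
  let Fr := FractionRing (MvPolynomial (Fin g) K)
  letI : Algebra Fr A.functionField := (IsFractionRing.lift hχinj).toAlgebra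
  have : IsScalarTower (MvPolynomial (Fin g) K) Fr A.functionField :=
    IsScalarTower.of_algebraMap_eq fun q => (IsFractionRing.lift_algebraMap hχinj q).symm
  have : Algebra.FormallyUnramified Fr A.functionField :=
    Algebra.FormallyUnramified.of_restrictScalars (MvPolynomial (Fin g) K) _ _
  have : Algebra.EssFiniteType Fr A.functionField :=
    Algebra.EssFiniteType.of_comp (MvPolynomial (Fin g) K) _ _
  have : Algebra.IsSeparable Fr A.functionField := Algebra.FormallyUnramified.isSeparable _ _
  have halgP : Algebra.IsAlgebraic (MvPolynomial (Fin g) K) A.functionField := by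
    constructor
    intro v
    exact (IsFractionRing.isAlgebraic_iff (MvPolynomial (Fin g) K) Fr A.functionField).mpr
      (Algebra.IsAlgebraic.isAlgebraic v)
  let T := Algebra.adjoin K (Set.range fun i => (e (t i) : A.functionField))
  have hmem : ∀ q, χ q ∈ T := by
    intro q
    induction q using MvPolynomial.induction_on with
    | C a => rw [hχC]; exact T.algebraMap_mem a
    | add a b ha hb => rw [map_add]; exact T.add_mem ha hb
    | mul_X a i ha =>
      rw [map_mul, hχt]
      exact T.mul_mem ha (T.add_mem (Algebra.subset_adjoin ⟨i, rfl⟩) (T.algebraMap_mem _))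
  let χT : MvPolynomial (Fin g) K →+* T := χ.codRestrict T hmem
  constructor
  intro v
  exact IsAlgebraic.ringHom_of_comp_eq χT (RingHom.id A.functionField) (halgP.isAlgebraic v)
    (fun a b h => hχinj (congrArg Subtype.val h)) rfl

end Fermat.Agent.Abelian.SchemeModel
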